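import Mathlib

set_option autoImplicit false

namespace Fermat.Agent.S57

open MvPowerSeries RingTheory.Sequence

section VanishIdeal

variable {σ : Type} {R : Type} [CommRing R]

/-- Power series all of whose coefficients at monomials not involving `s` vanish. -/
def vanishIdeal (s : Finset σ) : Ideal (MvPowerSeries σ R) where
  carrier := {f | ∀ m : σ →₀ ℕ, (∀ i ∈ s, m i = 0) → coeff m f = 0}
  add_mem' := by
    intro f g hf hg m hm
    rw [map_add, hf m hm, hg m hm, add_zero]
  zero_mem' := by
    intro m _
    exact map_zero _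
  smul_mem' := by
    intro h f hf m hm
    classical
    rw [smul_eq_mul, coeff_mul]
    apply Finset.sum_eq_zero
    rintro ⟨a, b⟩ hab
    have hab' : a + b = m := Finset.HasAntidiagonal.mem_antidiagonal.mp hab
    have hb : ∀ i ∈ s, b i = 0 := by
      intro i hi
      have h1 := hm i hi
      rw [← hab', Finsupp.add_apply] at h1
      omega
    rw [hf b hb, mul_zero]

lemma mem_vanishIdeal {s : Finset σ} {f : MvPowerSeries σ R} :
    f ∈ vanishIdeal s ↔ ∀ m : σ →₀ ℕ, (∀ i ∈ s, m i = 0) → coeff m f = 0 := Iff.rfl

lemma X_mem_vanishIdeal {s : Finset σ} {a : σ} (ha : a ∈ s) :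
    (X a : MvPowerSeries σ R) ∈ vanishIdeal s := by
  intro m hm
  classical
  rw [coeff_X, if_neg]
  rintro rfl
  have := hm a ha
  simp at this

lemma span_X_eq_vanishIdeal (s : Finset σ) :
    Ideal.span ((fun a => (X a : MvPowerSeries σ R)) '' (s : Set σ)) = vanishIdeal s := by
  classical
  apply le_antisymm
  · rw [Ideal.span_le]
    rintro _ ⟨a, ha, rfl⟩
    exact X_mem_vanishIdeal ha
  · induction s using Finset.induction_on with
    | empty =>
      intro f hf
      have : f = 0 := by
        ext m
        rw [hf m (by simp), map_zero]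
      rw [this]
      exact Ideal.zero_mem _
    | insert a s ha ih =>
      intro f hf
      let g : MvPowerSeries σ R := fun m =>
        if ∀ i ∈ s, m i = 0 then coeff (m + Finsupp.single a 1) f else 0
      have hg : f - X a * g ∈ vanishIdeal s := by
        intro m hm
        rw [map_sub, X_def, coeff_monomial_mul, one_mul]
        split_ifs with hle
        · have hm' : ∀ i ∈ s, (m - Finsupp.single a 1 : σ →₀ ℕ) i = 0 := by
            intro i hi
            rw [Finsupp.tsub_apply, hm i hi, Nat.zero_sub]
          have : coeff (m - Finsupp.single a 1) g = coeff m f := by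
            show g (m - Finsupp.single a 1) = coeff m f
            simp only [g]
            rw [if_pos hm', tsub_add_cancel_of_le hle]
          rw [this, sub_self]
        · have hma : m a = 0 := by
            by_contra hne
            apply hle
            intro i
            by_cases hi : i = a
            · subst hi
              simp only [Finsupp.single_eq_same]
              omega
            · rw [Finsupp.single_eq_of_ne hi]
              exact Nat.zero_le _
          rw [sub_zero]
          apply hf m
          intro i hi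
          rcases Finset.mem_insert.mp hi with rfl | hi
          · exact hma
          · exact hm i hi
      have hmono : Ideal.span ((fun a => (X a : MvPowerSeries σ R)) '' (s : Set σ)) ≤
          Ideal.span ((fun a => (X a : MvPowerSeries σ R)) '' ((insert a s : Finset σ) : Set σ)) :=
        Ideal.span_mono (Set.image_mono (by simp))
      have h1 := hmono (ih hg)
      have h2 : X a * g ∈
          Ideal.span ((fun a => (X a : MvPowerSeries σ R)) '' ((insert a s : Finset σ) : Set σ)) :=
        Ideal.mul_mem_right _ _ (Ideal.subset_span ⟨a, by simp, rfl⟩)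
      have := Ideal.add_mem _ h1 h2
      rwa [sub_add_cancel] at this

lemma X_mul_mem_vanishIdeal {s : Finset σ} {a : σ} (ha : a ∉ s) {f : MvPowerSeries σ R}
    (hf : X a * f ∈ vanishIdeal s) : f ∈ vanishIdeal s := by
  intro m hm
  have h := hf (Finsupp.single a 1 + m) (by
    intro i hi
    have hia : i ≠ a := fun h => ha (h ▸ hi)
    rw [Finsupp.add_apply, hm i hi, Finsupp.single_eq_of_ne hia])
  rw [X_def, coeff_add_monomial_mul, one_mul] at h
  exact h

lemma C_mul_mem_vanishIdeal {s : Finset σ} {c : R} (hc : ∀ x : R, c * x = 0 → x = 0)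
    {f : MvPowerSeries σ R} (hf : C c * f ∈ vanishIdeal s) : f ∈ vanishIdeal s := by
  intro m hm
  have h := hf m hm
  rw [coeff_C_mul] at h
  exact hc _ h

end VanishIdeal

section RegSeq

lemma isWeaklyRegular_self_of_forall {A : Type} [CommRing A] (rs : List A)
    (h : ∀ i (hi : i < rs.length), ∀ f : A,
      rs[i] * f ∈ Ideal.ofList (rs.take i) → f ∈ Ideal.ofList (rs.take i)) :
    IsWeaklyRegular A rs := by
  refine ⟨fun i hi => ?_⟩
  rw [isSMulRegular_iff_right_eq_zero_of_smul]
  intro m hm
  obtain ⟨f, rfl⟩ := Submodule.Quotient.mk_surjective _ m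
  rw [← Submodule.Quotient.mk_smul, Submodule.Quotient.mk_eq_zero] at hm
  rw [Submodule.Quotient.mk_eq_zero]
  rw [smul_eq_mul, Ideal.mul_top] at hm ⊢
  exact h i hi f hm

variable {r : ℕ} {R : Type} [CommRing R]

lemma mem_take_ofFn {α : Type} (f : Fin r → α) (i : ℕ) (x : α) :
    x ∈ (List.ofFn f).take i ↔ ∃ j : Fin r, j.val < i ∧ f j = x := by
  rw [List.mem_take_iff_getElem]
  constructor
  · rintro ⟨k, hk, rfl⟩
    simp only [List.length_ofFn, lt_min_iff] at hk
    exact ⟨⟨k, hk.2⟩, hk.1, by simp⟩
  · rintro ⟨j, hj, rfl⟩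
    exact ⟨j.val, by simp [hj], by simp⟩

lemma ofList_take_ofFn_X (i : ℕ) :
    Ideal.ofList ((List.ofFn (fun j : Fin r => (X j : MvPowerSeries (Fin r) R))).take i) =
      vanishIdeal (Finset.univ.filter fun j : Fin r => j.val < i) := by
  have hset : {x | x ∈ (List.ofFn (fun j : Fin r => (X j : MvPowerSeries (Fin r) R))).take i} =
      (fun j : Fin r => (X j : MvPowerSeries (Fin r) R)) ''
        ((Finset.univ.filter fun j : Fin r => j.val < i : Finset (Fin r)) : Set (Fin r)) := by
    ext x
    simp [mem_take_ofFn]
  rw [← span_X_eq_vanishIdeal, ← hset]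

/-- The sequence `X 0, …, X (r-1), C c` is weakly regular on the power series ring. -/
lemma isWeaklyRegular_X_C {c : R} (hc : ∀ x : R, c * x = 0 → x = 0) :
    IsWeaklyRegular (MvPowerSeries (Fin r) R)
      (List.ofFn (fun j : Fin r => (X j : MvPowerSeries (Fin r) R)) ++ [C c]) := by
  apply isWeaklyRegular_self_of_forall
  intro i hi f hf
  simp only [List.length_append, List.length_ofFn, List.length_singleton] at hi
  have hle : i ≤ (List.ofFn (fun j : Fin r => (X j : MvPowerSeries (Fin r) R))).length := by
    rw [List.length_ofFn]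
    omega
  rw [List.take_append_of_le_length hle, ofList_take_ofFn_X] at hf ⊢
  by_cases hir : i < r
  · rw [List.getElem_append_left (by simpa using hir), List.getElem_ofFn] at hf
    exact X_mul_mem_vanishIdeal (by simp) hf
  · have hir' : i = r := by omega
    subst hir'
    rw [List.getElem_append_right (by simp)] at hf
    simp only [List.length_ofFn, Nat.sub_self, List.getElem_cons_zero] at hf
    exact C_mul_mem_vanishIdeal hc hf

end RegSeq

section MaxIdeal

open IsLocalRing

variable {r : ℕ} {R : Type} [CommRing R] [IsLocalRing R]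

lemma C_mem_maximalIdeal {a : R} (ha : a ∈ maximalIdeal R) :
    (C a : MvPowerSeries (Fin r) R) ∈ maximalIdeal (MvPowerSeries (Fin r) R) := by
  rw [mem_maximalIdeal, mem_nonunits_iff, MvPowerSeries.isUnit_iff_constantCoeff,
    constantCoeff_C]
  exact ha

lemma X_mem_maximalIdeal (j : Fin r) :
    (X j : MvPowerSeries (Fin r) R) ∈ maximalIdeal (MvPowerSeries (Fin r) R) := by
  rw [mem_maximalIdeal, mem_nonunits_iff, MvPowerSeries.isUnit_iff_constantCoeff,
    constantCoeff_X]
  exact not_isUnit_zero

lemma span_cons_C_X_eq_maximalIdeal {ϖ : R} (hϖ : maximalIdeal R = Ideal.span {ϖ}) :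
    Ideal.span (Set.range (Fin.cons (C ϖ) (fun j : Fin r => X j) :
      Fin (r + 1) → MvPowerSeries (Fin r) R)) = maximalIdeal (MvPowerSeries (Fin r) R) := by
  have hϖmem : ϖ ∈ maximalIdeal R := by
    rw [hϖ]
    exact Ideal.mem_span_singleton_self ϖ
  apply le_antisymm
  · rw [Ideal.span_le]
    rintro _ ⟨i, rfl⟩
    induction i using Fin.cases with
    | zero => exact C_mem_maximalIdeal hϖmem
    | succ j => exact X_mem_maximalIdeal j
  · intro f hf
    rw [mem_maximalIdeal, mem_nonunits_iff, MvPowerSeries.isUnit_iff_constantCoeff] at hf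
    have hf' : constantCoeff f ∈ maximalIdeal R := hf
    rw [hϖ, Ideal.mem_span_singleton'] at hf'
    obtain ⟨a, ha⟩ := hf'
    have h1 : f - C a * C ϖ ∈ vanishIdeal (Finset.univ : Finset (Fin r)) := by
      intro m hm
      have hm0 : m = 0 := by
        ext i
        exact hm i (Finset.mem_univ i)
      subst hm0
      rw [coeff_zero_eq_constantCoeff_apply, map_sub, map_mul, constantCoeff_C,
        constantCoeff_C, ha, sub_self]
    rw [← span_X_eq_vanishIdeal] at h1
    have hle : Ideal.span ((fun a => (X a : MvPowerSeries (Fin r) R)) ''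
        ((Finset.univ : Finset (Fin r)) : Set (Fin r))) ≤
        Ideal.span (Set.range (Fin.cons (C ϖ) (fun j : Fin r => X j) :
          Fin (r + 1) → MvPowerSeries (Fin r) R)) := by
      apply Ideal.span_mono
      rintro _ ⟨j, _, rfl⟩
      exact ⟨j.succ, by simp⟩
    have h2 : C a * C ϖ ∈ Ideal.span (Set.range (Fin.cons (C ϖ) (fun j : Fin r => X j) :
        Fin (r + 1) → MvPowerSeries (Fin r) R)) :=
      Ideal.mul_mem_left _ _ (Ideal.subset_span ⟨0, by simp⟩)
    have := Ideal.add_mem _ (hle h1) h2
    rwa [sub_add_cancel] at this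

end MaxIdeal

end Fermat.Agent.S57
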