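import Mathlib

set_option autoImplicit false

namespace Fermat.Agent.S57

open CategoryTheory Abelian RingTheory.Sequence IsLocalRing

section DepthDrop

variable {A : Type} [CommRing A] [IsLocalRing A] [IsNoetherianRing A]
variable {N : Type} [AddCommGroup N] [Module A N] [Module.Finite A N]

omit [IsNoetherianRing A] in
lemma maximalIdeal_smul_top_lt_top [Nontrivial N] :
    maximalIdeal A • (⊤ : Submodule A N) < ⊤ := by
  refine lt_of_le_of_ne le_top fun h => ?_
  have hfg : (⊤ : Submodule A N).FG := Module.Finite.fg_top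
  have := Submodule.eq_bot_of_le_smul_of_le_jacobson_bot (maximalIdeal A) (⊤ : Submodule A N) hfg
    (le_of_eq h.symm) (IsLocalRing.maximalIdeal_le_jacobson _)
  exact top_ne_bot this

lemma exists_isRegular_quotSMulTop [Nontrivial N]
    {x : A} (hx : x ∈ maximalIdeal A) (hreg : IsSMulRegular N x)
    {rs : List A} {n : ℕ} (hlen : rs.length = n + 1) (hmem : ∀ r ∈ rs, r ∈ maximalIdeal A)
    (hrs : IsWeaklyRegular N rs) :
    ∃ rs' : List A, rs'.length = n ∧ (∀ r ∈ rs', r ∈ maximalIdeal A) ∧
      IsRegular (QuotSMulTop x N) rs' := by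
  have hreg' : IsRegular N rs := IsRegular.of_isWeaklyRegular_of_mem_maximalIdeal N hmem hrs
  have h31 := (ModuleCat.exists_isRegular_tfae (maximalIdeal A) (n + 1) (ModuleCat.of A N)
      maximalIdeal_smul_top_lt_top).out 3 1
  have h2 : ∀ i < n + 1, Subsingleton
      (Ext (ModuleCat.of A (Shrink.{0} (A ⧸ maximalIdeal A))) (ModuleCat.of A N) i) :=
    h31.mp ⟨rs, hlen, hmem, hreg'⟩
  have h2' : ∀ i < n, Subsingleton
      (Ext (ModuleCat.of A (Shrink.{0} (A ⧸ maximalIdeal A)))
        (ModuleCat.of A (QuotSMulTop x N)) i) := by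
    intro i hi
    have zero1 := AddCommGrpCat.isZero_of_iff_subsingleton.mpr (h2 i (by omega))
    have zero2 := AddCommGrpCat.isZero_of_iff_subsingleton.mpr (h2 (i + 1) (by omega))
    have hS : (ModuleCat.smulShortComplex (ModuleCat.of A N) x).ShortExact :=
      IsSMulRegular.smulShortComplex_shortExact (M := ModuleCat.of A N) hreg
    exact AddCommGrpCat.subsingleton_of_isZero <| ShortComplex.Exact.isZero_of_both_zeros
        ((Ext.covariant_sequence_exact₃' _ hS) i (i + 1) rfl)
        (zero1.eq_zero_of_src _) (zero2.eq_zero_of_tgt _)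
  have := nontrivial_quotSMulTop_of_mem_maximalIdeal N hx
  have h13 := (ModuleCat.exists_isRegular_tfae (maximalIdeal A) n
      (ModuleCat.of A (QuotSMulTop x N)) maximalIdeal_smul_top_lt_top).out 1 3
  exact h13.mp h2'

lemma exists_regular_not_mem_sq [Nontrivial N] {y : A} (hy : y ∈ maximalIdeal A)
    (hyreg : IsSMulRegular N y) :
    ∃ x ∈ maximalIdeal A, x ∉ maximalIdeal A ^ 2 ∧ IsSMulRegular N x := by
  by_contra hcon
  push Not at hcon
  have hfin := associatedPrimes.finite A N
  let s : Finset (Ideal A) := insert (maximalIdeal A ^ 2) hfin.toFinset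
  have hsub : ((maximalIdeal A : Ideal A) : Set A) ⊆
      ⋃ i ∈ (↑s : Set (Ideal A)), ((id i : Ideal A) : Set A) := by
    intro x hx
    by_cases hx2 : x ∈ maximalIdeal A ^ 2
    · simp only [Set.mem_iUnion]
      exact ⟨maximalIdeal A ^ 2, by simp [s], hx2⟩
    · have hnr := hcon x hx hx2
      have hmem : x ∈ ({r | IsSMulRegular N r}ᶜ : Set A) := hnr
      rw [← biUnion_associatedPrimes_eq_compl_regular A N] at hmem
      simp only [Set.mem_iUnion] at hmem ⊢
      obtain ⟨p, hp, hxp⟩ := hmem
      exact ⟨p, by simp [s, hp], hxp⟩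
  rw [Ideal.subset_union_prime (maximalIdeal A ^ 2) (maximalIdeal A ^ 2)] at hsub
  · obtain ⟨i, hi, hle⟩ := hsub
    simp only [s, Finset.mem_insert, Set.Finite.mem_toFinset] at hi
    rcases hi with rfl | hi
    · have h0 : maximalIdeal A = ⊥ := by
        apply Submodule.eq_bot_of_le_smul_of_le_jacobson_bot (maximalIdeal A) (maximalIdeal A)
          (IsNoetherian.noetherian _) _ (maximalIdeal_le_jacobson _)
        rw [smul_eq_mul, ← pow_two]
        exact hle
      rw [h0, Ideal.mem_bot] at hy
      subst hy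
      exact not_subsingleton N (IsSMulRegular.zero_iff_subsingleton.mp hyreg)
    · have hyi : y ∈ (⋃ p ∈ associatedPrimes A N, (p : Set A)) := by
        simp only [Set.mem_iUnion]
        exact ⟨i, hi, hle hy⟩
      rw [biUnion_associatedPrimes_eq_compl_regular A N] at hyi
      exact hyi hyreg
  · intro i hi h1 _
    simp only [s, Finset.mem_insert, Set.Finite.mem_toFinset] at hi
    rcases hi with rfl | hi
    · exact absurd rfl h1
    · exact hi.isPrime

end DepthDrop

section Generators

variable {A : Type} [CommRing A] [IsLocalRing A]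

lemma exists_generators_quotient {n : ℕ} (g : Fin (n + 1) → A)
    (hg : Ideal.span (Set.range g) = maximalIdeal A) {x : A} (hx : x ∈ maximalIdeal A)
    (hx2 : x ∉ maximalIdeal A ^ 2) :
    ∃ g' : Fin n → A ⧸ Ideal.span {x},
      Ideal.span (Set.range g') =
        (maximalIdeal A).map (Ideal.Quotient.mk (Ideal.span {x})) := by
  have hx' := hx
  rw [← hg] at hx'
  obtain ⟨c, hc⟩ := Ideal.mem_span_range_iff_exists_fun.mp hx'
  have hunit : ∃ i, IsUnit (c i) := by
    by_contra hne
    push Not at hne
    apply hx2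
    rw [← hc, pow_two]
    refine Ideal.sum_mem _ fun i _ => Ideal.mul_mem_mul ((mem_maximalIdeal _).mpr (hne i)) ?_
    rw [← hg]
    exact Ideal.subset_span ⟨i, rfl⟩
  obtain ⟨i, hi⟩ := hunit
  refine ⟨fun j => Ideal.Quotient.mk _ (g (i.succAbove j)), ?_⟩
  rw [← hg, Ideal.map_span]
  apply le_antisymm
  · apply Ideal.span_mono
    rintro _ ⟨j, rfl⟩
    exact ⟨g (i.succAbove j), ⟨_, rfl⟩, rfl⟩
  · rw [Ideal.span_le]
    rintro _ ⟨_, ⟨k, rfl⟩, rfl⟩
    by_cases hk : k = i
    · subst hk
      have h0 : Ideal.Quotient.mk (Ideal.span {x}) (∑ i, c i * g i) = 0 := by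
        rw [hc]
        exact Ideal.Quotient.eq_zero_iff_mem.mpr (Ideal.mem_span_singleton_self x)
      rw [Fin.sum_univ_succAbove _ k, map_add, map_sum] at h0
      obtain ⟨u, hu⟩ := hi
      have hgk : Ideal.Quotient.mk (Ideal.span {x}) (g k) =
          Ideal.Quotient.mk _ (↑u⁻¹ : A) * Ideal.Quotient.mk _ (c k * g k) := by
        rw [← map_mul, ← mul_assoc, ← hu, Units.inv_mul, one_mul]
      rw [hgk, eq_neg_of_add_eq_zero_left h0]
      refine Ideal.mul_mem_left _ _ (neg_mem (Ideal.sum_mem _ fun j _ => ?_))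
      rw [map_mul]
      exact Ideal.mul_mem_left _ _ (Ideal.subset_span ⟨j, rfl⟩)
    · obtain ⟨j, rfl⟩ := Fin.exists_succAbove_eq hk
      exact Ideal.subset_span ⟨j, rfl⟩

end Generators

theorem free_of_isWeaklyRegular (n : ℕ) :
    ∀ (A : Type) [CommRing A] [IsLocalRing A] [IsNoetherianRing A]
      (g : Fin n → A), Ideal.span (Set.range g) = maximalIdeal A →
      ∀ (N : Type) [AddCommGroup N] [Module A N] [Module.Finite A N] (rs : List A),
        rs.length = n → (∀ r ∈ rs, r ∈ maximalIdeal A) →
        IsWeaklyRegular N rs → Module.Free A N := by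
  induction n with
  | zero =>
    intro A _ _ _ g hg N _ _ _ rs _ _ _
    have hbot : maximalIdeal A = ⊥ := by
      rw [← hg]
      simp
    have hfield : IsField A := isField_iff_maximalIdeal_eq.mpr hbot
    let _ := hfield.toField
    infer_instance
  | succ n ih =>
    intro A _ _ _ g hg N _ _ _ rs hlen hmem hrs
    rcases subsingleton_or_nontrivial N with hN | hN
    · exact Module.Free.of_subsingleton A N
    · obtain ⟨y, rs', rfl⟩ : ∃ y rs', rs = y :: rs' := by
        cases rs with
        | nil => simp at hlen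
        | cons y rs' => exact ⟨y, rs', rfl⟩
      have hy : y ∈ maximalIdeal A := hmem y (List.mem_cons_self ..)
      have hyreg : IsSMulRegular N y := ((isWeaklyRegular_cons_iff N y rs').mp hrs).1
      obtain ⟨x, hx, hx2, hxreg⟩ := exists_regular_not_mem_sq hy hyreg
      obtain ⟨rs'', hlen'', hmem'', hreg''⟩ :=
        exists_isRegular_quotSMulTop hx hxreg hlen hmem hrs
      obtain ⟨g', hg'⟩ := exists_generators_quotient g hg hx hx2
      have hne : Ideal.span {x} ≠ ⊤ := fun h => by
        have hle : Ideal.span {x} ≤ maximalIdeal A :=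
          (Ideal.span_singleton_le_iff_mem _).mpr hx
        rw [h] at hle
        exact (maximalIdeal.isMaximal A).ne_top (top_le_iff.mp hle)
      have : Nontrivial (A ⧸ Ideal.span {x}) := Ideal.Quotient.nontrivial_iff.mpr hne
      have : IsLocalRing (A ⧸ Ideal.span {x}) :=
        IsLocalRing.of_surjective' (Ideal.Quotient.mk _) Ideal.Quotient.mk_surjective
      have hmap : (maximalIdeal A).map (Ideal.Quotient.mk (Ideal.span {x})) =
          maximalIdeal (A ⧸ Ideal.span {x}) :=
        map_maximalIdeal_of_surjective _ Ideal.Quotient.mk_surjective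
      have hfree : Module.Free (A ⧸ Ideal.span {x}) (QuotSMulTop x N) := by
        have : Module.Finite (A ⧸ Ideal.span {x}) (QuotSMulTop x N) :=
          Module.Finite.of_restrictScalars_finite A _ _
        refine ih (A ⧸ Ideal.span {x}) g' (hg'.trans hmap) (QuotSMulTop x N)
          (rs''.map (Ideal.Quotient.mk (Ideal.span {x}))) (by simpa using hlen'') ?_ ?_
        · intro r hr
          obtain ⟨r', hr', rfl⟩ := List.mem_map.mp hr
          rw [← hmap]
          exact Ideal.mem_map_of_mem _ (hmem'' r' hr')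
        · exact (isWeaklyRegular_map_algebraMap_iff (A ⧸ Ideal.span {x}) (QuotSMulTop x N)
            rs'').mpr hreg''.toIsWeaklyRegular
      have hfp : Module.FinitePresentation A N := Module.finitePresentation_of_finite A N
      exact (Module.free_quotSMulTop_iff_free A N (maximalIdeal_le_jacobson _ hx) hxreg).mp hfree

end Fermat.Agent.S57
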